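import Fermat.Agent.S15.Dict.PF.Trans
import Fermat.Agent.S15.Dict.AN.Tools.Even2

/-!
# S12 ⇐ S15, block H2 (analytic part)

`L' = L + ℤ z₀` a cyclic overlattice of odd index `N`, `h` a half period of `L`, `e = ℘_L(h)`.

* `mulVelu` (**IV**): `∏_{k < N} (℘_L(z + k z₀) - e) = c (℘_{L'}(z) - ℘_{L'}(h))`,
  `c = ∏_{0 < k < N} (℘_L(k z₀) - e)`;
* `pair_formula` (**H2**): `c₁ c₂ (e₁' - e₂') = (e₁ - e₂)^N c₃`.
-/

set_option autoImplicit false

namespace Fermat.Agent.S12.H2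

open PeriodPair Filter Topology
open Fermat.Agent.S15.Dict.PF (IsCyc IsHalf)
open Fermat.Agent.S15.Dict

/-- `∏_{k < N} (℘(z + k z₀) - e)`. -/
noncomputable def GG (L : PeriodPair) (N : ℕ) (z₀ e z : ℂ) : ℂ :=
  ∏ k ∈ Finset.range N, (℘[L] (z + k * z₀) - e)

/-- `∏_{0 < k < N} (℘(k z₀) - e)`. -/
noncomputable def cc (L : PeriodPair) (N : ℕ) (z₀ e : ℂ) : ℂ :=
  ∏ k ∈ Finset.Ico 1 N, (℘[L] (k * z₀) - e)

theorem wp_add_mem (L : PeriodPair) (z l : ℂ) (hl : l ∈ L.lattice) : ℘[L] (z + l) = ℘[L] z :=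
  L.weierstrassP_add_coe z ⟨l, hl⟩

theorem meromorphicAt_factor (L : PeriodPair) (a e x : ℂ) :
    MeromorphicAt (fun z => ℘[L] (z + a) - e) x := by
  have h1 : MeromorphicAt (fun z => ℘[L] (z + a)) x :=
    (L.meromorphic_weierstrassP (x + a)).comp_analyticAt (g := fun z => z + a) (by fun_prop)
  exact h1.sub (MeromorphicAt.const e x)

theorem analyticAt_factor (L : PeriodPair) (a e x : ℂ) (h : x + a ∉ L.lattice) :
    AnalyticAt ℂ (fun z => ℘[L] (z + a) - e) x := by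
  have h1 : AnalyticAt ℂ ℘[L] (x + a) := L.analyticOnNhd_weierstrassP (x + a) h
  have h2 : AnalyticAt ℂ (fun z => ℘[L] (z + a)) x :=
    AnalyticAt.comp (f := fun z : ℂ => z + a) (g := ℘[L]) h1 (by fun_prop)
  exact h2.sub analyticAt_const

theorem GG_add_lattice (L : PeriodPair) (N : ℕ) (z₀ e z l : ℂ) (hl : l ∈ L.lattice) :
    GG L N z₀ e (z + l) = GG L N z₀ e z := by
  unfold GG
  refine Finset.prod_congr rfl fun k _ => ?_
  rw [add_right_comm, wp_add_mem L _ l hl]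

variable {L L' : PeriodPair} {N : ℕ} {z₀ : ℂ}

theorem natCast_mul_mem (C : IsCyc L L' N z₀) : (N : ℂ) * z₀ ∈ L.lattice := by
  have := (C.ord (N : ℤ)).mpr dvd_rfl
  simpa using this

theorem GG_add_z₀ (C : IsCyc L L' N z₀) (e z : ℂ) : GG L N z₀ e (z + z₀) = GG L N z₀ e z := by
  unfold GG
  set f : ℕ → ℂ := fun k => ℘[L] (z + k * z₀) - e with hf
  have h1 : ∀ k : ℕ, ℘[L] (z + z₀ + k * z₀) - e = f (k + 1) := by
    intro k
    rw [hf]
    simp only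
    congr 2
    push_cast
    ring
  have hN : f N = f 0 := by
    rw [hf]
    simp only
    rw [wp_add_mem L _ _ (natCast_mul_mem C)]
    simp
  rw [Finset.prod_congr rfl fun k _ => h1 k]
  show ∏ k ∈ Finset.range N, f (k + 1) = ∏ k ∈ Finset.range N, f k
  cases N with
  | zero => simp
  | succ n => rw [Finset.prod_range_succ, Finset.prod_range_succ' f n, hN]

theorem GG_add_int (C : IsCyc L L' N z₀) (e : ℂ) (k : ℤ) :
    ∀ z : ℂ, GG L N z₀ e (z + k * z₀) = GG L N z₀ e z := by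
  induction k using Int.induction_on with
  | zero =>
    intro z
    simp
  | succ i ih =>
    intro z
    have e' : z + ((i : ℤ) + 1 : ℤ) * z₀ = z + (i : ℤ) * z₀ + z₀ := by
      push_cast
      ring
    rw [e', GG_add_z₀ C, ih]
  | pred i ih =>
    intro z
    have e' : z + (-(i : ℤ) : ℤ) * z₀ = z + (-(i : ℤ) - 1 : ℤ) * z₀ + z₀ := by
      push_cast
      ring
    rw [← GG_add_z₀ C, ← e', ih]

theorem GG_periodic (C : IsCyc L L' N z₀) (e z l : ℂ) (hl : l ∈ L'.lattice) :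
    GG L N z₀ e (z + l) = GG L N z₀ e z := by
  obtain ⟨k, hk⟩ := (C.mem_iff l).mp hl
  have e' : z + l = z + k * z₀ + (l - k * z₀) := by ring
  rw [e', GG_add_lattice L N z₀ e _ _ hk, GG_add_int C]

theorem GG_neg (C : IsCyc L L' N z₀) (e z : ℂ) : GG L N z₀ e (-z) = GG L N z₀ e z := by
  rw [← GG_add_z₀ C e z]
  unfold GG
  rw [← Finset.prod_range_reflect]
  refine Finset.prod_congr rfl fun j hj => ?_
  have hj' : j + 1 ≤ N := Finset.mem_range.1 hj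
  have e1 : ((N - 1 - j : ℕ) : ℂ) = (N : ℂ) - 1 - j := by
    rw [Nat.sub_sub, Nat.cast_sub (by omega)]
    push_cast
    ring
  rw [e1, ← L.weierstrassP_neg]
  have e2 : -(-z + ((N : ℂ) - 1 - j) * z₀) + N * z₀ = z + z₀ + j * z₀ := by ring
  rw [← e2, wp_add_mem L _ _ (natCast_mul_mem C)]

theorem meromorphic_GG (L : PeriodPair) (N : ℕ) (z₀ e : ℂ) : Meromorphic (GG L N z₀ e) := by
  intro x
  exact MeromorphicAt.fun_prod fun k _ => meromorphicAt_factor L _ e x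

theorem analyticAt_GG (C : IsCyc L L' N z₀) (e : ℂ) {x : ℂ} (hx : x ∉ L'.lattice) :
    AnalyticAt ℂ (GG L N z₀ e) x :=
  Finset.analyticAt_fun_prod _ fun k _ => analyticAt_factor L _ e x (C.add_mul_notMem x hx k)

theorem mul_notMem (C : IsCyc L L' N z₀) {k : ℕ} (hk : k ∈ Finset.Ico 1 N) :
    (k : ℂ) * z₀ ∉ L.lattice := by
  intro h
  have h1 : ((k : ℤ) : ℂ) * z₀ ∈ L.lattice := by simpa using h
  have h2 := Int.le_of_dvd (by have := (Finset.mem_Ico.1 hk).1; omega) ((C.ord k).1 h1)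
  have := (Finset.mem_Ico.1 hk).2
  omega

theorem GG_eq_mul (L : PeriodPair) {N : ℕ} (hN : 0 < N) (z₀ e z : ℂ) :
    GG L N z₀ e z = (℘[L] z - e) * ∏ k ∈ Finset.Ico 1 N, (℘[L] (z + k * z₀) - e) := by
  unfold GG
  rw [Finset.range_eq_Ico, Finset.prod_eq_prod_Ico_succ_bot hN]
  simp

theorem tendsto_sq_mul_GG (C : IsCyc L L' N z₀) (hN : 0 < N) (e : ℂ) :
    Tendsto (fun z => (z - 0) ^ 2 * GG L N z₀ e z) (𝓝[≠] (0 : ℂ)) (𝓝 (cc L N z₀ e)) := by
  have h1 := AN.tendsto_sq_mul_P_sub (L := L) (l := 0) L.lattice.zero_mem e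
  have h2 : ContinuousAt (fun z => ∏ k ∈ Finset.Ico 1 N, (℘[L] (z + k * z₀) - e)) 0 :=
    (Finset.analyticAt_fun_prod _ fun k hk => analyticAt_factor L _ e 0
      (by rw [zero_add]; exact mul_notMem C hk)).continuousAt
  have h3 : Tendsto (fun z => ∏ k ∈ Finset.Ico 1 N, (℘[L] (z + k * z₀) - e)) (𝓝[≠] (0 : ℂ))
      (𝓝 (cc L N z₀ e)) := by
    have := h2.tendsto.mono_left (nhdsWithin_le_nhds (s := {(0 : ℂ)}ᶜ))
    simpa [cc] using this
  have h4 := h1.mul h3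
  rw [one_mul] at h4
  refine h4.congr fun z => ?_
  rw [GG_eq_mul L hN]
  ring

theorem eventually_notMem (L : PeriodPair) : ∀ᶠ z in 𝓝[≠] (0 : ℂ), z ∉ L.lattice := by
  have hcl : IsClosed ((L.lattice : Set ℂ) \ {0}) :=
    L.isClosed_of_subset_lattice (s := (L.lattice : Set ℂ) \ {0}) Set.sdiff_subset
  have hmem : (0 : ℂ) ∉ (L.lattice : Set ℂ) \ {0} := fun h => h.2 rfl
  have hnh : ((L.lattice : Set ℂ) \ {0})ᶜ ∈ 𝓝 (0 : ℂ) := hcl.isOpen_compl.mem_nhds hmem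
  filter_upwards [nhdsWithin_le_nhds hnh, self_mem_nhdsWithin] with z hz hz0 hzL
  exact hz ⟨hzL, hz0⟩

/-- **(IV)** the multiplicative form of Vélu's formula. -/
theorem mulVelu (hN : Odd N) (C : IsCyc L L' N z₀) {h : ℂ} (h2 : 2 * h ∈ L.lattice)
    (hn : h ∉ L.lattice) {z : ℂ} (hz : z ∉ L'.lattice) :
    GG L N z₀ (℘[L] h) z = cc L N z₀ (℘[L] h) * (℘[L'] z - ℘[L'] h) := by
  set e := ℘[L] h with he
  have hNpos : 0 < N := hN.pos
  have hlim := tendsto_sq_mul_GG C hNpos e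
  obtain ⟨α, β, hαβ⟩ := AN.even_two L' (meromorphic_GG L N z₀ e)
    (fun z l hl => GG_periodic C e z l hl) (fun z => GG_neg C e z)
    (fun z hz => (analyticAt_GG C e hz).meromorphicOrderAt_nonneg)
    (by exact_mod_cast AN.order_ge_of_tendsto (meromorphic_GG L N z₀ e 0) 2 _ hlim)
  have key : ∀ w, w ∉ L'.lattice → GG L N z₀ e w = α * ℘[L'] w + β := fun w hw =>
    hαβ w hw (analyticAt_GG C e hw).continuousAt
  -- the leading coefficient
  have hα : α = cc L N z₀ e := by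
    have h1 := AN.tendsto_sq_mul_P_sub (L := L') (l := 0) L'.lattice.zero_mem 0
    have h3 : Tendsto (fun z : ℂ => (z - 0) ^ 2 * β) (𝓝[≠] (0 : ℂ)) (𝓝 0) := by
      have : Tendsto (fun z : ℂ => (z - 0) ^ 2 * β) (𝓝 (0 : ℂ)) (𝓝 (((0 : ℂ) - 0) ^ 2 * β)) :=
        Continuous.tendsto (by fun_prop) 0
      simp only [sub_zero, ne_eq, OfNat.ofNat_ne_zero, not_false_eq_true, zero_pow, zero_mul]
        at this
      simpa using this.mono_left nhdsWithin_le_nhds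
    have h4 := (h1.const_mul α).add h3
    rw [mul_one, add_zero] at h4
    refine tendsto_nhds_unique (h4.congr' ?_) hlim
    filter_upwards [eventually_notMem L'] with w hw
    rw [key w hw]
    ring
  have hh : h ∉ L'.lattice := PF.half_notMem_of_isCyc hN C h2 hn
  have h0 : GG L N z₀ e h = 0 := by
    rw [GG_eq_mul L hNpos, he, sub_self, zero_mul]
  have hβ := key h hh
  rw [h0] at hβ
  rw [key z hz, ← hα]
  linear_combination -hβ

/-- translation by a half period, in the form used for `pair_formula`. -/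
theorem half_translate' {h₁ h₂ : ℂ} (H : IsHalf L h₁ h₂) {u : ℂ} (hu : u ∉ L.lattice)
    (hu' : u + h₁ ∉ L.lattice) :
    (℘[L] (h₁ + u) - ℘[L] h₂) * (℘[L] u - ℘[L] h₁) =
      (℘[L] h₁ - ℘[L] h₂) * (℘[L] u - ℘[L] (h₁ + h₂)) := by
  have h := PF.half_translate L H u hu hu'
  rw [add_comm h₁ u]
  linear_combination h

/-- **(H2)** the pairwise identity. -/
theorem pair_formula (hN : Odd N) (C : IsCyc L L' N z₀) {h₁ h₂ : ℂ} (H : IsHalf L h₁ h₂) :
    cc L N z₀ (℘[L] h₁) * cc L N z₀ (℘[L] h₂) * (℘[L'] h₁ - ℘[L'] h₂) =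
      (℘[L] h₁ - ℘[L] h₂) ^ N * cc L N z₀ (℘[L] (h₁ + h₂)) := by
  have hNpos : 0 < N := hN.pos
  have hh₁ : h₁ ∉ L'.lattice := PF.half_notMem_of_isCyc hN C H.two₁ H.not₁
  have h1 := mulVelu hN C H.two₂ H.not₂ hh₁
  rw [GG_eq_mul L hNpos] at h1
  have h2 : (∏ k ∈ Finset.Ico 1 N, (℘[L] (h₁ + k * z₀) - ℘[L] h₂)) * cc L N z₀ (℘[L] h₁) =
      (℘[L] h₁ - ℘[L] h₂) ^ (N - 1) * cc L N z₀ (℘[L] (h₁ + h₂)) := by
    unfold cc
    rw [← Finset.prod_mul_distrib]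
    have : ∀ k ∈ Finset.Ico 1 N, (℘[L] (h₁ + k * z₀) - ℘[L] h₂) * (℘[L] (k * z₀) - ℘[L] h₁) =
        (℘[L] h₁ - ℘[L] h₂) * (℘[L] (k * z₀) - ℘[L] (h₁ + h₂)) := by
      intro k hk
      refine half_translate' H (mul_notMem C hk) ?_
      rw [add_comm]
      exact C.add_mul_notMem h₁ hh₁ k
    rw [Finset.prod_congr rfl this, Finset.prod_mul_distrib, Finset.prod_const]
    simp
  have h3 : (℘[L] h₁ - ℘[L] h₂) ^ N = (℘[L] h₁ - ℘[L] h₂) * (℘[L] h₁ - ℘[L] h₂) ^ (N - 1) := by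
    rw [← pow_succ']
    congr 1
    omega
  rw [h3]
  linear_combination (-(cc L N z₀ (℘[L] h₁))) * h1 + (℘[L] h₁ - ℘[L] h₂) * h2

end Fermat.Agent.S12.H2
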