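import Fermat.Agent.S12.H2.An
import Fermat.Agent.Lib.Unif.Main
import Fermat.Agent.Lib.Unif.MapPt

/-!
# S12 ⇐ S15, block H2 (transfer to points of Weierstrass curves)

`W` a Weierstrass curve over a field `K ⊆ ℂ`, `Q` a point of odd prime order `N`, `T` a nonzero
`2`-torsion point.

* `mulVelu_of_embedding` (**IVK**):
  `∏_{i < N} (x(R + iQ) - x(T)) = (∏_{0 < i < N} (x(iQ) - x(T))) (X(R) - X(T))`, `X = veluX W Q N`;
* `pair_of_embedding` (**H2K**):
  `g(T) g(T') (X(T) - X(T')) = (x(T) - x(T'))^N g(T + T')`, `g(S) = ∏_{0 < i < N} (x(iQ) - x(S))`.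
-/

set_option autoImplicit false

namespace Fermat.Agent.S12.H2

open WeierstrassCurve Fermat.Agent.S05.XOnly Fermat.Agent.Lib.Unif
open Fermat.Agent.S15.Dict.PF (IsCyc IsHalf)

/-- `g(S) = ∏_{0 < i < N} (x(iQ) - x(S))`. -/
noncomputable def gprod {K : Type*} [Field K] [DecidableEq K] {W : WeierstrassCurve K}
    (Q : W.toAffine.Point) (N : ℕ) (S : W.toAffine.Point) : K :=
  ∏ i ∈ Finset.Ico 1 N, (xc (i • Q) - xc S)

section Complex

variable {W : WeierstrassCurve ℂ} {L L' : PeriodPair} {N : ℕ} {z₀ : ℂ}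

theorem isCyc_of (hc : IsCyclicOver L L' N z₀) : IsCyc L L' N z₀ := ⟨hc.mem, hc.ord⟩

theorem gprod_piHom (h : IsUnif W L) (hc : IsCyclicOver L L' N z₀) {t : ℂ} (ht : t ∉ L.lattice) :
    gprod (piHom h z₀) N (piHom h t) = cc L N z₀ (L.weierstrassP t) := by
  unfold gprod cc
  refine Finset.prod_congr rfl fun i hi => ?_
  rw [nsmul_piHom, xc_piHom h (hc.mul_notMem hi), xc_piHom h ht]
  ring

theorem veluX_piHom' (h : IsUnif W L) (hc : IsCyclicOver L L' N z₀) (hN : 0 < N) {z : ℂ}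
    (hz : z ∉ L'.lattice) :
    veluX W (piHom h z₀) N (piHom h z) = L'.weierstrassP z - W.b₂ / 12 := by
  rw [veluX_piHom h hc hN hz, xc_piHom (isUnif_velu h hc hN) hz, veluCurve_b₂]

theorem mem_zmultiples_iff (h : IsUnif W L) (hc : IsCyclicOver L L' N z₀) (hN : 0 < N) (z : ℂ) :
    piHom h z ∈ AddSubgroup.zmultiples (piHom h z₀) ↔ z ∈ L'.lattice := by
  obtain ⟨φ, hφ, -, hker, -⟩ := exists_veluHom_lattice h hc hN
  rw [← hker, hφ, piHom_eq_zero_iff]

theorem two_mul_mem_of (h : IsUnif W L) {t : ℂ} (ht : 2 • piHom h t = 0) :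
    2 * t ∈ L.lattice := by
  rw [nsmul_piHom, piHom_eq_zero_iff] at ht
  exact_mod_cast ht

theorem mulVelu_lattice (h : IsUnif W L) (hc : IsCyclicOver L L' N z₀) (hN : Odd N) {t z : ℂ}
    (ht0 : piHom h t ≠ 0) (ht : 2 • piHom h t = 0)
    (hz : piHom h z ∉ AddSubgroup.zmultiples (piHom h z₀)) :
    ∏ i ∈ Finset.range N, (xc (piHom h z + i • piHom h z₀) - xc (piHom h t)) =
      gprod (piHom h z₀) N (piHom h t) *
        (veluX W (piHom h z₀) N (piHom h z) - veluX W (piHom h z₀) N (piHom h t)) := by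
  have hz' : z ∉ L'.lattice := fun hm => hz ((mem_zmultiples_iff h hc hN.pos z).2 hm)
  have ht' : t ∉ L.lattice := fun hm => ht0 ((piHom_eq_zero_iff h).2 hm)
  have ht2 : 2 * t ∈ L.lattice := two_mul_mem_of h ht
  have htL' : t ∉ L'.lattice :=
    Fermat.Agent.S15.Dict.PF.half_notMem_of_isCyc hN (isCyc_of hc) ht2 ht'
  have key := mulVelu hN (isCyc_of hc) ht2 ht' hz'
  rw [gprod_piHom h hc ht', veluX_piHom' h hc hN.pos hz', veluX_piHom' h hc hN.pos htL']
  have e : ∏ i ∈ Finset.range N, (xc (piHom h z + i • piHom h z₀) - xc (piHom h t)) =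
      GG L N z₀ (L.weierstrassP t) z := by
    unfold GG
    refine Finset.prod_congr rfl fun i _ => ?_
    rw [veluHom_add_nsmul, xc_piHom h (veluHom_add_notMem hc hz' i), xc_piHom h ht']
    ring
  rw [e, key]
  ring

theorem pair_lattice (h : IsUnif W L) (hc : IsCyclicOver L L' N z₀) (hN : Odd N) {t t' : ℂ}
    (ht0 : piHom h t ≠ 0) (ht : 2 • piHom h t = 0) (ht0' : piHom h t' ≠ 0)
    (ht' : 2 • piHom h t' = 0) (hne : piHom h t ≠ piHom h t') :
    gprod (piHom h z₀) N (piHom h t) * gprod (piHom h z₀) N (piHom h t') *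
        (veluX W (piHom h z₀) N (piHom h t) - veluX W (piHom h z₀) N (piHom h t')) =
      (xc (piHom h t) - xc (piHom h t')) ^ N *
        gprod (piHom h z₀) N (piHom h t + piHom h t') := by
  have h1 : t ∉ L.lattice := fun hm => ht0 ((piHom_eq_zero_iff h).2 hm)
  have h2 : t' ∉ L.lattice := fun hm => ht0' ((piHom_eq_zero_iff h).2 hm)
  have h3 : t + t' ∉ L.lattice := by
    intro hm
    apply hne
    have e1 : piHom h t + piHom h t' = 0 := by rw [← map_add]; exact (piHom_eq_zero_iff h).2 hm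
    have e2 : piHom h t' + piHom h t' = 0 := by rw [← two_nsmul]; exact ht'
    exact add_right_cancel (e1.trans e2.symm)
  have H : IsHalf L t t' := ⟨two_mul_mem_of h ht, two_mul_mem_of h ht', h1, h2, h3⟩
  have H' : IsHalf L' t t' := H.of_isCyc hN (isCyc_of hc)
  have key := pair_formula hN (isCyc_of hc) H
  rw [← map_add, gprod_piHom h hc h1, gprod_piHom h hc h2, gprod_piHom h hc h3,
    veluX_piHom' h hc hN.pos H'.not₁, veluX_piHom' h hc hN.pos H'.not₂, xc_piHom h h1,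
    xc_piHom h h2]
  have e1 : L'.weierstrassP t - W.b₂ / 12 - (L'.weierstrassP t' - W.b₂ / 12) =
      L'.weierstrassP t - L'.weierstrassP t' := by ring
  have e2 : L.weierstrassP t - W.b₂ / 12 - (L.weierstrassP t' - W.b₂ / 12) =
      L.weierstrassP t - L.weierstrassP t' := by ring
  rw [e1, e2]
  exact key

/-- **(IV)** over `ℂ`. -/
theorem mulVelu_complex (hΔ : W.Δ ≠ 0) (hN : N.Prime) (hodd : Odd N) {Q : W.toAffine.Point}
    (hQ0 : Q ≠ 0) (hQ : N • Q = 0) {T : W.toAffine.Point} (hT0 : T ≠ 0) (hT : 2 • T = 0)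
    {R : W.toAffine.Point} (hR : R ∉ AddSubgroup.zmultiples Q) :
    ∏ i ∈ Finset.range N, (xc (R + i • Q) - xc T) =
      gprod Q N T * (veluX W Q N R - veluX W Q N T) := by
  have : NeZero N := ⟨hN.ne_zero⟩
  obtain ⟨L, h, -, rfl⟩ := exists_unif_order hΔ hN hQ0 hQ
  obtain ⟨t, rfl⟩ := piHom_surjective h T
  obtain ⟨z, rfl⟩ := piHom_surjective h R
  exact mulVelu_lattice h (isCyclicOver_divN L N) hodd hT0 hT hR

/-- **(H2)** over `ℂ`. -/
theorem pair_complex (hΔ : W.Δ ≠ 0) (hN : N.Prime) (hodd : Odd N) {Q : W.toAffine.Point}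
    (hQ0 : Q ≠ 0) (hQ : N • Q = 0) {T T' : W.toAffine.Point} (hT0 : T ≠ 0) (hT : 2 • T = 0)
    (hT0' : T' ≠ 0) (hT' : 2 • T' = 0) (hne : T ≠ T') :
    gprod Q N T * gprod Q N T' * (veluX W Q N T - veluX W Q N T') =
      (xc T - xc T') ^ N * gprod Q N (T + T') := by
  have : NeZero N := ⟨hN.ne_zero⟩
  obtain ⟨L, h, -, rfl⟩ := exists_unif_order hΔ hN hQ0 hQ
  obtain ⟨t, rfl⟩ := piHom_surjective h T
  obtain ⟨t', rfl⟩ := piHom_surjective h T'
  exact pair_lattice h (isCyclicOver_divN L N) hodd hT0 hT hT0' hT' hne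

end Complex

section Descent

variable {K : Type*} [Field K] [DecidableEq K] {W : WeierstrassCurve K} {N : ℕ}

theorem gprod_map (ι : K →+* ℂ) (Q S : W.toAffine.Point) :
    gprod (mapPt ι W Q) N (mapPt ι W S) = ι (gprod Q N S) := by
  simp only [gprod, map_prod, map_sub, ← map_nsmul, xc_mapPt]

theorem mapPt_ne_zero (ι : K →+* ℂ) {P : W.toAffine.Point} (hP : P ≠ 0) : mapPt ι W P ≠ 0 := fun h =>
  hP (mapPt_injective ι W (h.trans (map_zero _).symm))

theorem mapPt_notMem_zmultiples (ι : K →+* ℂ) {Q R : W.toAffine.Point} (hR : R ∉ AddSubgroup.zmultiples Q) :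
    mapPt ι W R ∉ AddSubgroup.zmultiples (mapPt ι W Q) := by
  intro h
  obtain ⟨k, hk⟩ := AddSubgroup.mem_zmultiples_iff.1 h
  rw [← map_zsmul] at hk
  exact hR (AddSubgroup.mem_zmultiples_iff.2 ⟨k, mapPt_injective ι W hk⟩)

/-- **(IVK)** the multiplicative form of Vélu's formula. -/
theorem mulVelu_of_embedding (ι : K →+* ℂ) (hΔ : W.Δ ≠ 0) (hN : N.Prime) (hodd : Odd N)
    {Q : W.toAffine.Point} (hQ0 : Q ≠ 0) (hQ : N • Q = 0) {T : W.toAffine.Point} (hT0 : T ≠ 0)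
    (hT : 2 • T = 0) {R : W.toAffine.Point} (hR : R ∉ AddSubgroup.zmultiples Q) :
    ∏ i ∈ Finset.range N, (xc (R + i • Q) - xc T) =
      gprod Q N T * (veluX W Q N R - veluX W Q N T) := by
  have hΔ' : (W.map ι).Δ ≠ 0 := by
    rw [WeierstrassCurve.map_Δ]
    exact (map_ne_zero ι).2 hΔ
  have key := mulVelu_complex hΔ' hN hodd (mapPt_ne_zero ι hQ0)
    (by rw [← map_nsmul, hQ, map_zero]) (mapPt_ne_zero ι hT0)
    (by rw [← map_nsmul, hT, map_zero]) (mapPt_notMem_zmultiples ι hR)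
  apply ι.injective
  rw [map_prod, map_mul, map_sub, ← gprod_map, ← veluX_map, ← veluX_map, ← key]
  refine Finset.prod_congr rfl fun i _ => ?_
  rw [map_sub, ← xc_mapPt, ← xc_mapPt, map_add, map_nsmul]

/-- **(H2K)** the pairwise identity. -/
theorem pair_of_embedding (ι : K →+* ℂ) (hΔ : W.Δ ≠ 0) (hN : N.Prime) (hodd : Odd N)
    {Q : W.toAffine.Point} (hQ0 : Q ≠ 0) (hQ : N • Q = 0) {T T' : W.toAffine.Point}
    (hT0 : T ≠ 0) (hT : 2 • T = 0) (hT0' : T' ≠ 0) (hT' : 2 • T' = 0) (hne : T ≠ T') :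
    gprod Q N T * gprod Q N T' * (veluX W Q N T - veluX W Q N T') =
      (xc T - xc T') ^ N * gprod Q N (T + T') := by
  have hΔ' : (W.map ι).Δ ≠ 0 := by
    rw [WeierstrassCurve.map_Δ]
    exact (map_ne_zero ι).2 hΔ
  have key := pair_complex hΔ' hN hodd (mapPt_ne_zero ι hQ0)
    (by rw [← map_nsmul, hQ, map_zero]) (mapPt_ne_zero ι hT0)
    (by rw [← map_nsmul, hT, map_zero]) (mapPt_ne_zero ι hT0')
    (by rw [← map_nsmul, hT', map_zero]) (fun h => hne (mapPt_injective ι W h))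
  apply ι.injective
  rw [map_mul, map_mul, map_mul, map_sub, map_pow, map_sub, ← gprod_map, ← gprod_map,
    ← gprod_map, ← veluX_map, ← veluX_map, ← xc_mapPt, ← xc_mapPt, map_add]
  exact key

end Descent

end Fermat.Agent.S12.H2
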